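import Fermat.Agent.Extra.Modularity
import Fermat.Agent.Extra.Switch.Main
import Fermat.Agent.LT.Wiring.Leaves
import Fermat.Agent.LL.Final

/-!
# Every semistable model is modular of exact conductor level, given the switch at `3`
-/

set_option autoImplicit false

noncomputable section

namespace Fermat.Agent.Extra

/-- Exact modularity of every semistable model from the switch at `3`. -/
theorem exactModularity_of_switchThree (hs3 : StmtSwitchThree) : Wiring.StmtExactModularity :=
  stmtExactModularity_of_switches LT.stmtWeightOne
    (LT.stmtCubeFree_of_keyHigh CarayolHigh.stmtKeyHigh)
    (LT.Leaves.stmt59_of_stmt38 LL.stmt38) switchFive hs3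

end Fermat.Agent.Extra
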