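import Fermat.Agent.Extra.Switch.Statements
import Fermat.Agent.LT.C0.Rep
import Fermat.Agent.LT.C4.Main
import Fermat.Agent.LT.LevelThree.Main
import Fermat.Agent.LT.Wiring.Frey
import Fermat.Agent.S51

/-!
# Modularity of every semistable model, from the two switches

* An admissible model is residually modular at `3` through the descent, hence modular of exact
  conductor level by S59.
* A model with irreducible mod `5` representation inherits this through `StmtSwitchFive`, and one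
  with reducible mod `5` representation through `StmtSwitchThree`.
* S50 and S60 follow.
-/

set_option autoImplicit false

open WeierstrassCurve WeierstrassCurve.Affine WeierstrassCurve.Affine.Point
open scoped WeierstrassCurve.Affine

noncomputable section

namespace Fermat.Agent.Extra

/-- A model congruent mod `p` to one modular of exact conductor level is residually modular at a
squarefree level. -/
theorem exists_squarefree_level_of_congruent (p : ℕ) (hp : p.Prime) {W W' : WeierstrassCurve ℤ}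
    (hex : Mlc1IsModularModelOfExactConductorLevel W')
    (hcong : ∀ ℓ : ℕ, ℓ.Prime → W.IsGoodPrimeFor ℓ → W'.IsGoodPrimeFor ℓ → ℓ ≠ p →
        (p : ℤ) ∣ (W'.apOfModel ℓ - W.apOfModel ℓ)) :
    ∃ N : ℕ, 0 < N ∧ W.IsResiduallyModularOfLevel p N ∧ ∀ q : ℕ, q.Prime → ¬ q ^ 2 ∣ N := by
  obtain ⟨N, hN0, hsq, hN, f, hf, hfc⟩ := hex
  obtain ⟨𝔪, h𝔪, hpm⟩ := FLTPrelim.exists_maximalIdeal_natCast_prime_mem hp
  refine ⟨N, hN0,
    ⟨f, 𝔪, hf, h𝔪, hpm, fun ℓ hℓ hgood hℓN hℓp => ?_⟩, fun q hq h => ?_⟩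
  · have hgood' : W'.IsGoodPrimeFor ℓ := fun h => hℓN ((hN ℓ hℓ).2 h)
    refine ⟨(W'.apOfModel ℓ : integralClosure ℤ ℂ), ?_, ?_⟩
    · rw [hfc ℓ hℓ hgood' hℓN]; simp
    · obtain ⟨k, hk⟩ := hcong ℓ hℓ hgood hgood' hℓp
      rw [← Int.cast_sub, hk]
      push_cast
      exact Ideal.mul_mem_right _ _ hpm
  · exact Nat.squarefree_iff_prime_squarefree.1 hsq q hq (by rwa [← pow_two])

/-- An admissible model is modular of exact conductor level. -/
theorem exact_of_admissible (hW1 : LT.StmtWeightOne) (hcf : LT.StmtCubeFree)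
    (h59 : Wiring.Stmt59) {W : WeierstrassCurve ℤ} (hW : LT.C0.IsThreeAdmissible W) :
    Mlc1IsModularModelOfExactConductorLevel W := by
  obtain ⟨ρ, hρ⟩ := LT.C0.exists_isThreeRep hW
  obtain ⟨M, hM0, hres, h9⟩ := LT.C4.stmtC4 hW1 W ρ hW.delta_ne_zero hW.semistable hρ
  obtain ⟨M₁, hM₁0, hres₁, h9₁⟩ :
      ∃ M₁ : ℕ, 0 < M₁ ∧ W.IsResiduallyModularOfLevel 3 M₁ ∧ ¬ 3 ^ 2 ∣ M₁ := by
    rcases hW.local_three with h | h
    · exact LT.LevelThree.stmtC5 W hW.delta_ne_zero hW.semistable hW.irreducible h M hM0 hres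
    · exact ⟨M, hM0, hres, h9 h.1⟩
  obtain ⟨M', hM'0, hres', h9', hcube⟩ :=
    hcf W hW.delta_ne_zero hW.semistable hW.irreducible M₁ hM₁0 hres₁ h9₁
  have : NeZero M' := ⟨hM'0.ne'⟩
  exact h59 3 (Or.inl rfl) W hW.delta_ne_zero hW.semistable hW.irreducible M' hres' h9' hcube

/-- Exact modularity travels along a congruence mod `p = 3, 5`. -/
theorem exact_of_congruent (h59 : Wiring.Stmt59) {p : ℕ} (hp : p = 3 ∨ p = 5)
    {W W' : WeierstrassCurve ℤ} (hΔ : W.Δ ≠ 0) (hW : W.IsSemistableModel)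
    (hirr : W.ModRepIsIrreducible p) (hex : Mlc1IsModularModelOfExactConductorLevel W')
    (hcong : ∀ ℓ : ℕ, ℓ.Prime → W.IsGoodPrimeFor ℓ → W'.IsGoodPrimeFor ℓ → ℓ ≠ p →
        (p : ℤ) ∣ (W'.apOfModel ℓ - W.apOfModel ℓ)) :
    Mlc1IsModularModelOfExactConductorLevel W := by
  have hp' : p.Prime := by rcases hp with rfl | rfl <;> norm_num
  obtain ⟨N, hN0, hres, hsq⟩ := exists_squarefree_level_of_congruent p hp' hex hcong
  have : NeZero N := ⟨hN0.ne'⟩
  exact h59 p hp W hΔ hW hirr N hres (hsq p hp')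
    (fun q hq _ h => hsq q hq ((pow_dvd_pow q (by norm_num : 2 ≤ 3)).trans h))

/-- Modularity of exact conductor level of every semistable model. -/
theorem stmtExactModularity_of_switches (hW1 : LT.StmtWeightOne) (hcf : LT.StmtCubeFree)
    (h59 : Wiring.Stmt59) (hs5 : StmtSwitchFive) (hs3 : StmtSwitchThree) :
    Wiring.StmtExactModularity := by
  have five : ∀ W : WeierstrassCurve ℤ, W.Δ ≠ 0 → W.IsSemistableModel →
      W.ModRepIsIrreducible 5 → Mlc1IsModularModelOfExactConductorLevel W := by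
    intro W hΔ hW hirr
    obtain ⟨W', hW', hcong⟩ := hs5 W hΔ hW hirr
    exact exact_of_congruent h59 (Or.inr rfl) hΔ hW hirr
      (exact_of_admissible hW1 hcf h59 hW') hcong
  intro W hΔ hW
  by_cases h5 : W.ModRepIsIrreducible 5
  · exact five W hΔ hW h5
  · have h3 : W.ModRepIsIrreducible 3 := (S51.result W hΔ hW).resolve_right h5
    obtain ⟨W', hΔ', hW', hirr', hcong⟩ := hs3 W hΔ hW h3
    exact exact_of_congruent h59 (Or.inl rfl) hΔ hW h3 (five W' hΔ' hW' hirr') hcong

/-- S50 from modularity of exact conductor level. -/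
theorem stmt50_of_exact (hex : Wiring.StmtExactModularity) : Wiring.Stmt50 := by
  intro W hΔ hW _
  obtain ⟨N, hN0, hres, hsq⟩ := exists_squarefree_level_of_congruent 3 Nat.prime_three
    (hex W hΔ hW) (W := W) (fun ℓ _ _ _ _ => by simp)
  exact ⟨N, hN0, hres, fun q hq _ h => hsq q hq ((pow_dvd_pow q (by norm_num : 2 ≤ 3)).trans h),
    fun h => absurd h (hsq 3 Nat.prime_three)⟩

end Fermat.Agent.Extra
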